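import Mathlib

/-!
# S55, layer G (helper357): the local Euler factor of a product of `L`-series

For a finite commutative group `D` (in the application: the dual of a finite abelian group `A`)
and a homomorphism `e : D →* ℂˣ` (in the application: evaluation at an element of `A`),
`∏_{d} (1 - e d * x) = (1 - x ^ m) ^ k` with `m = #range e`, `k = #ker e`.
-/

set_option autoImplicit false

namespace Fermat.Agent.S55.G.H357

open Finset

/-- A finite set of complex numbers of cardinality `m` all of whose elements are `m`-th roots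
of unity is the set of all `m`-th roots of unity; hence `∏ (1 - ω x) = 1 - x ^ m`. -/
theorem prod_one_sub_mul_of_card (S : Finset ℂ) (hS : ∀ ω ∈ S, ω ^ S.card = 1) (hne : S.Nonempty)
    (x : ℂ) : ∏ ω ∈ S, (1 - ω * x) = 1 - x ^ S.card := by
  have hpos : 0 < S.card := Finset.card_pos.mpr hne
  have hprim := Complex.isPrimitiveRoot_exp S.card hpos.ne'
  have hset : S = Polynomial.nthRootsFinset S.card (1 : ℂ) := by
    apply Finset.eq_of_subset_of_card_le
    · intro ω hω
      rw [Polynomial.mem_nthRootsFinset hpos]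
      exact hS ω hω
    · rw [hprim.card_nthRootsFinset]
  have h := hprim.pow_sub_pow_eq_prod_sub_mul (1 : ℂ) x hpos
  rw [one_pow] at h
  rw [h]
  exact Finset.prod_congr hset fun _ _ => rfl

/-- The product of `1 - e d * x` over a finite group `D`, for a homomorphism `e : D →* ℂˣ`. -/
theorem exists_prod_one_sub_eq {D : Type*} [Group D] [Fintype D] (e : D →* ℂˣ) (x : ℂ) :
    ∃ m k : ℕ, 0 < m ∧ ∏ d : D, (1 - ((e d : ℂˣ) : ℂ) * x) = (1 - x ^ m) ^ k := by
  classical
  set g : D → ℂ := fun d => ((e d : ℂˣ) : ℂ) with hg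
  set S : Finset ℂ := Finset.univ.image g with hSdef
  have hne : S.Nonempty := ⟨g 1, Finset.mem_image_of_mem _ (Finset.mem_univ _)⟩
  -- the fibres all have the same cardinality
  set k : ℕ := (Finset.univ.filter fun d : D => g d = 1).card with hk
  have hfib : ∀ ω ∈ S, (Finset.univ.filter fun d : D => g d = ω).card = k := by
    intro ω hω
    obtain ⟨d₀, -, rfl⟩ := Finset.mem_image.mp hω
    have h1 := MonoidHom.card_fiber_eq_of_mem_range e (x := e d₀) (y := 1) ⟨d₀, rfl⟩ ⟨1, map_one e⟩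
    have e1 : (Finset.univ.filter fun d : D => g d = g d₀) =
        Finset.univ.filter fun d : D => e d = e d₀ := by
      ext d
      simp only [Finset.mem_filter, Finset.mem_univ, true_and, hg]
      exact Units.val_inj
    have e2 : (Finset.univ.filter fun d : D => g d = 1) =
        Finset.univ.filter fun d : D => e d = 1 := by
      ext d
      simp only [Finset.mem_filter, Finset.mem_univ, true_and, hg]
      exact Units.val_eq_one
    rw [hk, e1, e2]
    exact h1
  -- every element of `S` is a `#S`-th root of unity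
  have hcard : S.card = Nat.card e.range := by
    have h1 : S = (Finset.univ.image fun d : D => e d).image (fun u : ℂˣ => (u : ℂ)) := by
      rw [Finset.image_image]
      rfl
    rw [h1, Finset.card_image_of_injective _ Units.val_injective]
    have h2 : ((Finset.univ.image fun d : D => e d : Finset ℂˣ) : Set ℂˣ) = (e.range : Set ℂˣ) := by
      ext u
      simp [MonoidHom.mem_range]
    rw [← Set.ncard_coe_finset, h2]
    rfl
  have hroot : ∀ ω ∈ S, ω ^ S.card = 1 := by
    intro ω hω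
    obtain ⟨d₀, -, rfl⟩ := Finset.mem_image.mp hω
    have h1 : (⟨e d₀, ⟨d₀, rfl⟩⟩ : e.range) ^ Nat.card e.range = 1 := pow_card_eq_one'
    have h2 : (e d₀) ^ Nat.card e.range = 1 := by
      have := congrArg (fun u : e.range => (u : ℂˣ)) h1
      simpa using this
    rw [hcard, hg]
    have := congrArg (fun u : ℂˣ => (u : ℂ)) h2
    simpa using this
  refine ⟨S.card, k, Finset.card_pos.mpr hne, ?_⟩
  have h1 : ∏ d : D, (1 - ((e d : ℂˣ) : ℂ) * x) = ∏ d : D, (fun ω : ℂ => 1 - ω * x) (g d) := rfl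
  rw [h1, Finset.prod_comp (fun ω : ℂ => 1 - ω * x) g]
  rw [← prod_one_sub_mul_of_card S hroot hne x, ← Finset.prod_pow]
  refine Finset.prod_congr rfl fun ω hω => ?_
  rw [hfib ω hω]

/-- The norm of the local factor is at most one. -/
theorem norm_prod_one_sub_le_one {D : Type*} [Group D] [Fintype D] (e : D →* ℂˣ) {x : ℝ}
    (hx0 : 0 ≤ x) (hx1 : x ≤ 1) : ‖∏ d : D, (1 - ((e d : ℂˣ) : ℂ) * (x : ℂ))‖ ≤ 1 := by
  obtain ⟨m, k, hm, h⟩ := exists_prod_one_sub_eq e (x : ℂ)
  rw [h, norm_pow]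
  have hxm0 : 0 ≤ x ^ m := pow_nonneg hx0 m
  have hxm1 : x ^ m ≤ 1 := pow_le_one₀ hx0 hx1
  have hn : ‖(1 : ℂ) - (x : ℂ) ^ m‖ = 1 - x ^ m := by
    rw [← Complex.ofReal_one, ← Complex.ofReal_pow, ← Complex.ofReal_sub, Complex.norm_real,
      Real.norm_of_nonneg (by linarith)]
  rw [hn]
  exact pow_le_one₀ (by linarith) (by linarith)

/-- The inverse local factor has norm at least one. -/
theorem one_le_norm_prod_inv {D : Type*} [Group D] [Fintype D] (e : D →* ℂˣ) {x : ℝ}
    (hx0 : 0 ≤ x) (hx1 : x < 1) : 1 ≤ ‖∏ d : D, (1 - ((e d : ℂˣ) : ℂ) * (x : ℂ))⁻¹‖ := by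
  rw [Finset.prod_inv_distrib, norm_inv]
  have hle := norm_prod_one_sub_le_one e hx0 hx1.le
  have hpos : 0 < ‖∏ d : D, (1 - ((e d : ℂˣ) : ℂ) * (x : ℂ))‖ := by
    rw [norm_pos_iff]
    refine Finset.prod_ne_zero_iff.mpr fun d _ => ?_
    intro h0
    have h1 : ((e d : ℂˣ) : ℂ) * (x : ℂ) = 1 := by
      rw [sub_eq_zero] at h0
      exact h0.symm
    have h2 : ‖((e d : ℂˣ) : ℂ) * (x : ℂ)‖ = 1 := by rw [h1, norm_one]
    have h3 : ‖((e d : ℂˣ) : ℂ)‖ = 1 := by
      have hfin : (e d) ^ Fintype.card D = 1 := by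
        rw [← map_pow, pow_card_eq_one, map_one]
      have h4 : (((e d : ℂˣ) : ℂ)) ^ Fintype.card D = 1 := by
        have := congrArg (fun u : ℂˣ => (u : ℂ)) hfin
        simpa using this
      have h5 : ‖((e d : ℂˣ) : ℂ)‖ ^ Fintype.card D = 1 := by rw [← norm_pow, h4, norm_one]
      exact (pow_eq_one_iff_of_nonneg (norm_nonneg _) Fintype.card_ne_zero).mp h5
    rw [norm_mul, h3, one_mul, Complex.norm_real, Real.norm_of_nonneg hx0] at h2
    linarith
  exact (one_le_inv₀ hpos).mpr hle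

/-- For the trivial homomorphism the inverse local factor is `(1 - x)^(-#D) ≥ (1 + x)^#D`. -/
theorem pow_le_norm_prod_inv_of_trivial {D : Type*} [Group D] [Fintype D] (e : D →* ℂˣ)
    (he : ∀ d, e d = 1) {x : ℝ} (hx0 : 0 ≤ x) (hx1 : x < 1) :
    (1 + x) ^ Fintype.card D ≤ ‖∏ d : D, (1 - ((e d : ℂˣ) : ℂ) * (x : ℂ))⁻¹‖ := by
  have h1x : 0 < 1 - x := by linarith
  have h : ∏ d : D, (1 - ((e d : ℂˣ) : ℂ) * (x : ℂ))⁻¹ = (((1 - x)⁻¹ : ℝ) : ℂ) ^ Fintype.card D := by
    rw [Finset.prod_congr rfl (fun d _ => by rw [he d, Units.val_one, one_mul]),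
      Finset.prod_const, Finset.card_univ]
    congr 1
    push_cast
    rfl
  rw [h, norm_pow, Complex.norm_real, Real.norm_of_nonneg (inv_nonneg.mpr h1x.le)]
  apply pow_le_pow_left₀ (by linarith)
  rw [← one_div, le_div_iff₀ h1x]
  nlinarith

end Fermat.Agent.S55.G.H357
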