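import Mathlib
import Fermat.Agent.S14.H163.GoodMass

/-!
# S55, layer G (helper357): lower bound for the mass of the primes below degree one primes

`L / K` an extension of number fields of degree `n`.  The primes `v` of `K` (outside a finite
set) lying under a prime `w` of `L` of degree one over `ℚ` satisfy
`ζ_L(s) ≤ C (∏_{v ∈ T} (1 + N v^{-s}))^n` for suitable finite sets `T` of such primes.
-/

set_option autoImplicit false
set_option linter.unusedSectionVars false
set_option linter.deprecated false

namespace Fermat.Agent.S55.G.H357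

open NumberField IsDedekindDomain Filter Topology
open scoped nonZeroDivisors
open Fermat.Agent.S14

variable (K L : Type*) [Field K] [NumberField K] [Field L] [NumberField L] [Algebra K L]

/-- The prime of `K` under a prime of `L`. -/
noncomputable def und (w : HeightOneSpectrum (𝓞 L)) : HeightOneSpectrum (𝓞 K) :=
  HeightOneSpectrum.under (𝓞 K) w

theorem und_asIdeal (w : HeightOneSpectrum (𝓞 L)) :
    (und K L w).asIdeal = w.asIdeal.under (𝓞 K) := rfl

instance und_liesOver (w : HeightOneSpectrum (𝓞 L)) :
    w.asIdeal.LiesOver (und K L w).asIdeal := ⟨rfl⟩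

theorem asIdeal_mem_primesOverFinset (w : HeightOneSpectrum (𝓞 L)) :
    w.asIdeal ∈ IsDedekindDomain.primesOverFinset (und K L w).asIdeal (𝓞 L) := by
  have := (und K L w).isMaximal
  rw [IsDedekindDomain.mem_primesOverFinset_iff (und K L w).ne_bot]
  exact ⟨w.isPrime, und_liesOver K L w⟩

theorem noZeroSMulDivisors_ringOfIntegers : NoZeroSMulDivisors (𝓞 K) (𝓞 L) := by
  refine ⟨fun {c x} h => ?_⟩
  rw [Algebra.smul_def, mul_eq_zero] at h
  rcases h with h | h
  · left
    exact (FaithfulSMul.algebraMap_eq_zero_iff (𝓞 K) (𝓞 L)).mp h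
  · right
    exact h

/-- At most `[L : K]` primes of `L` lie over a given prime of `K`. -/
theorem card_fiber_le (v : HeightOneSpectrum (𝓞 K)) (T : Finset (HeightOneSpectrum (𝓞 L)))
    [DecidableEq (HeightOneSpectrum (𝓞 K))] :
    (T.filter (fun w => und K L w = v)).card ≤ Module.finrank K L := by
  classical
  have := v.isMaximal
  have : NoZeroSMulDivisors (𝓞 K) (𝓞 L) := noZeroSMulDivisors_ringOfIntegers K L
  refine le_trans ?_ (Ideal.card_primesOverFinset_le_finrank (𝓞 L) K L v.ne_bot)
  refine Finset.card_le_card_of_injOn (fun w => w.asIdeal) ?_ ?_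
  · intro w hw
    rw [Finset.mem_coe, Finset.mem_filter] at hw
    have := asIdeal_mem_primesOverFinset K L w
    rw [hw.2] at this
    exact this
  · intro w₁ _ w₂ _ h
    exact HeightOneSpectrum.ext h

/-- The primes of `L` over a given prime of `K` form a finite set. -/
theorem finite_fiber (v : HeightOneSpectrum (𝓞 K)) :
    {w : HeightOneSpectrum (𝓞 L) | und K L w = v}.Finite := by
  classical
  have := v.isMaximal
  refine Set.Finite.of_injOn (f := fun w : HeightOneSpectrum (𝓞 L) => w.asIdeal)
    (t := (IsDedekindDomain.primesOverFinset v.asIdeal (𝓞 L) : Set (Ideal (𝓞 L)))) ?_ ?_ (Finset.finite_toSet _)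
  · intro w hw
    have := asIdeal_mem_primesOverFinset K L w
    rw [Set.mem_setOf_eq.mp hw] at this
    exact this
  · intro w₁ _ w₂ _ h
    exact HeightOneSpectrum.ext h

/-- A prime of `L` with prime absolute norm has the same norm as the prime of `K` under it. -/
theorem absNorm_und_of_prime (w : HeightOneSpectrum (𝓞 L))
    (hw : (Ideal.absNorm w.asIdeal).Prime) :
    Ideal.absNorm (und K L w).asIdeal = Ideal.absNorm w.asIdeal := by
  have h := Ideal.absNorm_eq_pow_inertiaDeg'_of_liesOver w.asIdeal (und K L w).asIdeal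
    (und K L w).isPrime (und K L w).ne_bot
  exact ((Nat.Prime.pow_eq_iff hw).mp h.symm).1

/-- **Lower bound**: the primes of `K` under the degree one primes of `L` carry the mass of
`ζ_L`, with multiplicity at most `[L : K]`. -/
theorem lower_mass (Bad : Set (HeightOneSpectrum (𝓞 K))) (hBad : Bad.Finite) :
    ∃ C : ℝ, 0 < C ∧ ∀ s : ℝ, 1 < s → s ≤ 2 → ∃ T : Finset (HeightOneSpectrum (𝓞 K)),
      (∀ v ∈ T, v ∉ Bad ∧ ∃ w : HeightOneSpectrum (𝓞 L),
        (Ideal.absNorm w.asIdeal).Prime ∧ und K L w = v) ∧
      H163.zetaR L s ≤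
        C * (∏ v ∈ T, (1 + H163.normPow s (H163.toI0 v))) ^ Module.finrank K L := by
  classical
  -- the bad primes of `L`
  have hBadL : {w : HeightOneSpectrum (𝓞 L) | und K L w ∈ Bad}.Finite := by
    have : {w : HeightOneSpectrum (𝓞 L) | und K L w ∈ Bad} =
        ⋃ v ∈ Bad, {w : HeightOneSpectrum (𝓞 L) | und K L w = v} := by
      ext w
      simp
    rw [this]
    exact hBad.biUnion fun v _ => finite_fiber K L v
  obtain ⟨C, hC, hmass⟩ := H163.goodMass L hBadL.toFinset
  refine ⟨C, hC, fun s hs1 hs2 => ?_⟩
  obtain ⟨TL, hTL, hle⟩ := hmass s hs1 hs2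
  rw [H163.zetaI_eq_zetaR] at hle
  refine ⟨TL.image (und K L), ?_, ?_⟩
  · intro v hv
    obtain ⟨w, hw, rfl⟩ := Finset.mem_image.mp hv
    refine ⟨?_, w, (hTL w hw).1, rfl⟩
    have := (hTL w hw).2
    rw [Set.Finite.mem_toFinset, Set.mem_setOf_eq] at this
    exact this
  · refine hle.trans (mul_le_mul_of_nonneg_left ?_ hC.le)
    rw [← Finset.prod_fiberwise_of_maps_to (g := und K L) (t := TL.image (und K L))
      (fun w hw => Finset.mem_image_of_mem _ hw), ← Finset.prod_pow]
    refine Finset.prod_le_prod ?_ ?_
    · intro v _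
      refine Finset.prod_nonneg fun w _ => ?_
      have := H163.normPow_pos s (H163.toI0 w)
      rw [H163.pN_eq]
      linarith
    · intro v _
      have hx : (1 : ℝ) ≤ 1 + H163.normPow s (H163.toI0 v) := by
        have := H163.normPow_pos s (H163.toI0 v)
        linarith
      calc ∏ w ∈ TL with und K L w = v, (1 + H34.pN s w)
          = ∏ _w ∈ TL.filter (fun w => und K L w = v),
              (1 + H163.normPow s (H163.toI0 v)) := by
            refine Finset.prod_congr rfl fun w hw => ?_
            rw [Finset.mem_filter] at hw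
            rw [H34.pN_def, H163.normPow_apply]
            congr 2
            have := absNorm_und_of_prime K L w (hTL w hw.1).1
            rw [hw.2] at this
            exact_mod_cast this.symm
        _ = (1 + H163.normPow s (H163.toI0 v)) ^ (TL.filter (fun w => und K L w = v)).card :=
            Finset.prod_const _
        _ ≤ (1 + H163.normPow s (H163.toI0 v)) ^ Module.finrank K L :=
            pow_le_pow_right₀ hx (card_fiber_le K L v TL)

end Fermat.Agent.S55.G.H357
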