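import Mathlib
import Fermat.Agent.S14.H163.CharBound
import Fermat.Agent.S55.G.H357.LocalFactor

/-!
# S55, layer G (helper357): upper bound for the mass of the primes in the kernel

`K` a number field, `A` a finite abelian group, `ψ χ` (for `χ` in the dual of `A`) completely
multiplicative functions on the nonzero ideals with `ψ χ v = χ (a v)` at the good primes and
`ψ χ v = 0` at the bad primes.  If the series `L(s, ψ χ)` are bounded on `(1, 2]` for `χ ≠ 1`,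
then `(∏_{v ∈ T} (1 + N v^{-s}))^{#A} ≤ C ζ_K(s)` for all finite sets `T` of good primes with
`a v = 1`.
-/

set_option autoImplicit false
set_option linter.unusedSectionVars false

namespace Fermat.Agent.S55.G.H357

open NumberField IsDedekindDomain Filter Topology
open scoped nonZeroDivisors
open Fermat.Agent.S14

variable {K : Type*} [Field K] [NumberField K]

/-- The monoid hom `I ↦ ψ(I) N(I)^(-s)`. -/
noncomputable def tw (ψ : (Ideal (𝓞 K))⁰ →* ℂ) (s : ℝ) : (Ideal (𝓞 K))⁰ →* ℂ :=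
  ψ * ((Complex.ofRealHom : ℝ →+* ℂ).toMonoidHom.comp (H163.normPow s))

theorem tw_apply (ψ : (Ideal (𝓞 K))⁰ →* ℂ) (s : ℝ) (I : (Ideal (𝓞 K))⁰) :
    tw ψ s I = ψ I * ((H163.normPow s I : ℝ) : ℂ) := rfl

/-- The `L`-series of a completely multiplicative function `ψ` on ideals (real argument). -/
noncomputable def Lray (ψ : (Ideal (𝓞 K))⁰ →* ℂ) (s : ℝ) : ℂ :=
  ∑' I : (Ideal (𝓞 K))⁰, tw ψ s I

/-- Boundedness of `L(s, ψ)` on `(1, 2]`. -/
def LrayBounded (ψ : (Ideal (𝓞 K))⁰ →* ℂ) : Prop :=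
  ∃ B : ℝ, ∀ s : ℝ, 1 < s → s ≤ 2 → ‖Lray ψ s‖ ≤ B

theorem norm_tw_le {ψ : (Ideal (𝓞 K))⁰ →* ℂ} (hψ : ∀ I, ‖ψ I‖ ≤ 1) (s : ℝ)
    (I : (Ideal (𝓞 K))⁰) : ‖tw ψ s I‖ ≤ H163.normPow s I := by
  rw [tw_apply, norm_mul, Complex.norm_real, Real.norm_of_nonneg (H163.normPow_pos s I).le]
  calc ‖ψ I‖ * H163.normPow s I ≤ 1 * H163.normPow s I :=
        mul_le_mul_of_nonneg_right (hψ I) (H163.normPow_pos s I).le
    _ = H163.normPow s I := one_mul _

theorem summable_norm_tw {ψ : (Ideal (𝓞 K))⁰ →* ℂ} (hψ : ∀ I, ‖ψ I‖ ≤ 1) {s : ℝ} (hs : 1 < s) :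
    Summable fun I : (Ideal (𝓞 K))⁰ => ‖tw ψ s I‖ :=
  Summable.of_nonneg_of_le (fun _ => norm_nonneg _) (norm_tw_le hψ s) (H163.summable_normPow hs)

theorem hasProd_Lray {ψ : (Ideal (𝓞 K))⁰ →* ℂ} (hψ : ∀ I, ‖ψ I‖ ≤ 1) {s : ℝ} (hs : 1 < s) :
    HasProd (fun v : HeightOneSpectrum (𝓞 K) => (1 - tw ψ s (H163.toI0 v))⁻¹) (Lray ψ s) :=
  H163.hasProd_ideal (tw ψ s) (summable_norm_tw hψ hs)

theorem norm_Lray_le {ψ : (Ideal (𝓞 K))⁰ →* ℂ} (hψ : ∀ I, ‖ψ I‖ ≤ 1) {s : ℝ} (hs : 1 < s) :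
    ‖Lray ψ s‖ ≤ H163.zetaR K s := by
  unfold Lray H163.zetaR
  refine (norm_tsum_le_tsum_norm (summable_norm_tw hψ hs)).trans ?_
  exact Summable.tsum_le_tsum (norm_tw_le hψ s) (summable_norm_tw hψ hs) (H163.summable_normPow hs)

/-- **Upper bound**: the primes in the kernel have density at most `1 / #A`. -/
theorem kernel_mass_le {A : Type*} [CommGroup A] [Finite A]
    (ψ : (A →* ℂˣ) → ((Ideal (𝓞 K))⁰ →* ℂ)) (hnorm : ∀ χ I, ‖ψ χ I‖ ≤ 1)
    (a : HeightOneSpectrum (𝓞 K) → A) (Bad : Set (HeightOneSpectrum (𝓞 K)))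
    (hgood : ∀ χ v, v ∉ Bad → ψ χ (H163.toI0 v) = ((χ (a v) : ℂˣ) : ℂ))
    (hbad : ∀ χ v, v ∈ Bad → ψ χ (H163.toI0 v) = 0)
    (hbdd : ∀ χ : A →* ℂˣ, χ ≠ 1 → LrayBounded (ψ χ)) :
    ∃ C : ℝ, 0 < C ∧ ∀ s : ℝ, 1 < s → s ≤ 2 → ∀ T : Finset (HeightOneSpectrum (𝓞 K)),
      (∀ v ∈ T, v ∉ Bad ∧ a v = 1) →
        (∏ v ∈ T, (1 + H163.normPow s (H163.toI0 v))) ^ Nat.card A ≤ C * H163.zetaR K s := by
  classical
  letI : Fintype (A →* ℂˣ) := Fintype.ofFinite _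
  -- the number of characters
  have hcardD : Fintype.card (A →* ℂˣ) = Nat.card A := by
    have : NeZero (Monoid.exponent A) := ⟨Monoid.exponent_ne_zero_of_finite⟩
    rw [← Nat.card_eq_fintype_card]
    exact CommGroup.card_monoidHom_of_hasEnoughRootsOfUnity A ℂ
  -- bounds
  have hB : ∀ χ : A →* ℂˣ, ∃ B : ℝ, χ ≠ 1 → ∀ s : ℝ, 1 < s → s ≤ 2 → ‖Lray (ψ χ) s‖ ≤ B := by
    intro χ
    by_cases h : χ = 1
    · exact ⟨0, fun h' => absurd h h'⟩
    · obtain ⟨B, hB⟩ := hbdd χ h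
      exact ⟨B, fun _ => hB⟩
  choose B hB using hB
  refine ⟨∏ χ ∈ (Finset.univ : Finset (A →* ℂˣ)).erase 1, (|B χ| + 1), ?_,
    fun s hs1 hs2 T hT => ?_⟩
  · exact Finset.prod_pos fun χ _ => by positivity
  have hs0 : 0 < s := by linarith
  -- Euler products
  have hprod := hasProd_prod (s := (Finset.univ : Finset (A →* ℂˣ)))
    (f := fun χ (v : HeightOneSpectrum (𝓞 K)) => (1 - tw (ψ χ) s (H163.toI0 v))⁻¹)
    (a := fun χ => Lray (ψ χ) s)
    (fun χ _ => hasProd_Lray (hnorm χ) hs1)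
  have hnormP := hprod.norm
  -- local factors at good primes
  have hloc : ∀ v : HeightOneSpectrum (𝓞 K), v ∉ Bad →
      (∏ χ : A →* ℂˣ, (1 - tw (ψ χ) s (H163.toI0 v))⁻¹) =
        ∏ χ : A →* ℂˣ, (1 - (((MonoidHom.eval (a v) : (A →* ℂˣ) →* ℂˣ) χ : ℂˣ) : ℂ) *
          ((H163.normPow s (H163.toI0 v) : ℝ) : ℂ))⁻¹ := by
    intro v hv
    refine Finset.prod_congr rfl fun χ _ => ?_
    rw [tw_apply, hgood χ v hv]
    rfl
  have hx0 : ∀ v : HeightOneSpectrum (𝓞 K), 0 ≤ H163.normPow s (H163.toI0 v) :=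
    fun v => (H163.normPow_pos s _).le
  have hx1 : ∀ v : HeightOneSpectrum (𝓞 K), H163.normPow s (H163.toI0 v) < 1 :=
    fun v => H163.normPow_prime_lt_one hs0 v
  have hge : ∀ v : HeightOneSpectrum (𝓞 K),
      1 ≤ ‖∏ χ : A →* ℂˣ, (1 - tw (ψ χ) s (H163.toI0 v))⁻¹‖ := by
    intro v
    by_cases hv : v ∈ Bad
    · have : (∏ χ : A →* ℂˣ, (1 - tw (ψ χ) s (H163.toI0 v))⁻¹) = 1 := by
        refine Finset.prod_eq_one fun χ _ => ?_
        rw [tw_apply, hbad χ v hv, zero_mul, sub_zero, inv_one]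
      rw [this, norm_one]
    · have h1 := one_le_norm_prod_inv (MonoidHom.eval (a v) : (A →* ℂˣ) →* ℂˣ) (hx0 v) (hx1 v)
      have h2 := congrArg (fun z : ℂ => ‖z‖) (hloc v hv)
      exact h1.trans_eq h2.symm
  have hT' : ∀ v ∈ T, (1 + H163.normPow s (H163.toI0 v)) ^ Nat.card A ≤
      ‖∏ χ : A →* ℂˣ, (1 - tw (ψ χ) s (H163.toI0 v))⁻¹‖ := by
    intro v hv
    obtain ⟨hvB, hva⟩ := hT v hv
    have h1 := pow_le_norm_prod_inv_of_trivial (MonoidHom.eval (a v) : (A →* ℂˣ) →* ℂˣ)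
      (fun χ => by
        change χ (a v) = 1
        rw [hva, map_one]) (hx0 v) (hx1 v)
    have h2 := congrArg (fun z : ℂ => ‖z‖) (hloc v hvB)
    calc (1 + H163.normPow s (H163.toI0 v)) ^ Nat.card A
        = (1 + H163.normPow s (H163.toI0 v)) ^ Fintype.card (A →* ℂˣ) :=
          congrArg (fun n : ℕ => (1 + H163.normPow s (H163.toI0 v)) ^ n) hcardD.symm
      _ ≤ _ := h1
      _ = _ := h2.symm
  have hzpos : 0 < H163.zetaR K s := H163.zetaR_pos hs1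
  calc (∏ v ∈ T, (1 + H163.normPow s (H163.toI0 v))) ^ Nat.card A
      = ∏ v ∈ T, (1 + H163.normPow s (H163.toI0 v)) ^ Nat.card A := (Finset.prod_pow _ _ _).symm
    _ ≤ ∏ v ∈ T, ‖∏ χ : A →* ℂˣ, (1 - tw (ψ χ) s (H163.toI0 v))⁻¹‖ := by
        apply Finset.prod_le_prod
        · intro v _
          have := hx0 v
          positivity
        · exact hT'
    _ ≤ ‖∏ χ : A →* ℂˣ, Lray (ψ χ) s‖ := H163.prod_le_of_hasProd hnormP hge T
    _ = (∏ χ ∈ (Finset.univ : Finset (A →* ℂˣ)).erase 1, ‖Lray (ψ χ) s‖) * ‖Lray (ψ 1) s‖ := by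
        rw [norm_prod, ← Finset.prod_erase_mul _ _ (Finset.mem_univ (1 : A →* ℂˣ))]
    _ ≤ (∏ χ ∈ (Finset.univ : Finset (A →* ℂˣ)).erase 1, (|B χ| + 1)) * H163.zetaR K s := by
        apply mul_le_mul _ (norm_Lray_le (hnorm 1) hs1) (norm_nonneg _)
          (Finset.prod_nonneg fun χ _ => by positivity)
        apply Finset.prod_le_prod
        · intro χ _
          exact norm_nonneg _
        · intro χ hχ
          have hne : χ ≠ 1 := Finset.ne_of_mem_erase hχ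
          have := hB χ hne s hs1 hs2
          have h2 : B χ ≤ |B χ| := le_abs_self _
          linarith

end Fermat.Agent.S55.G.H357
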