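import Mathlib
import Fermat.Agent.S14.H163.GoodMass
import Fermat.Agent.S55.G.H357.Upper
import Fermat.Agent.S55.G.H357.Lower

/-!
# S55, layer G (helper357): the second inequality, analytic form

`L / K` an extension of number fields, `A` a finite abelian group, and a family of completely
multiplicative functions `ψ χ` on the nonzero ideals of `K` (`χ` in the dual of `A`) with
`ψ χ v = χ (a v)` at the good primes and `ψ χ v = 0` at the (finitely many) bad primes.
If `a v = 1` for every good prime `v` of `K` lying under a prime of `L` of degree one, and the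
series `L(s, ψ χ)` are bounded on `(1, 2]` for `χ ≠ 1`, then `#A ≤ [L : K]`.
-/

set_option autoImplicit false
set_option linter.unusedSectionVars false

namespace Fermat.Agent.S55.G.H357

open NumberField IsDedekindDomain Filter Topology
open scoped nonZeroDivisors
open Fermat.Agent.S14

/-- The elementary comparison of growth rates behind the second inequality. -/
theorem growth_contra {h n : ℕ} (hnh : n < h) {c C δ : ℝ} (hc : 0 < c) (hC : 0 < C)
    (hδ : 0 < δ)
    (H : ∀ s : ℝ, 1 < s → s < 1 + δ →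
      ∃ P : ℝ, 1 ≤ P ∧ c / (s - 1) ≤ P ^ n ∧ P ^ h ≤ C / (s - 1)) : False := by
  have hch : 0 < c ^ h := pow_pos hc h
  have hCn : 0 < C ^ n := pow_pos hC n
  set t : ℝ := min (δ / 2) (min (1 / 2) (c ^ h / (2 * C ^ n))) with ht
  have ht0 : 0 < t := by
    rw [ht]
    refine lt_min (by linarith) (lt_min (by norm_num) (by positivity))
  have htδ : t < δ := lt_of_le_of_lt (min_le_left _ _) (by linarith)
  have ht1 : t ≤ 1 := by
    have : t ≤ 1 / 2 := (min_le_right _ _).trans (min_le_left _ _)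
    linarith
  have htc : t * C ^ n < c ^ h := by
    have h1 : t ≤ c ^ h / (2 * C ^ n) := (min_le_right _ _).trans (min_le_right _ _)
    have h2 : t * C ^ n ≤ c ^ h / (2 * C ^ n) * C ^ n :=
      mul_le_mul_of_nonneg_right h1 hCn.le
    have h3 : c ^ h / (2 * C ^ n) * C ^ n = c ^ h / 2 := by
      field_simp
    linarith
  obtain ⟨P, hP1, hPn, hPh⟩ := H (1 + t) (by linarith) (by linarith)
  rw [add_sub_cancel_left] at hPn hPh
  have hP0 : 0 ≤ P := by linarith
  -- `(c / t)^h ≤ P^(n h) ≤ (C / t)^n`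
  have hkey : (c / t) ^ h ≤ (C / t) ^ n := by
    calc (c / t) ^ h ≤ (P ^ n) ^ h := pow_le_pow_left₀ (by positivity) hPn h
      _ = (P ^ h) ^ n := by rw [← pow_mul, ← pow_mul, mul_comm]
      _ ≤ (C / t) ^ n := pow_le_pow_left₀ (by positivity) hPh n
  rw [div_pow, div_pow, div_le_div_iff₀ (pow_pos ht0 h) (pow_pos ht0 n)] at hkey
  -- `t^h ≤ t^(n+1)`
  have hth : t ^ h ≤ t ^ n * t := by
    rw [← pow_succ]
    exact pow_le_pow_of_le_one ht0.le ht1 hnh
  have htn : 0 < t ^ n := pow_pos ht0 n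
  have : c ^ h * t ^ n ≤ (t * C ^ n) * t ^ n := by
    calc c ^ h * t ^ n ≤ C ^ n * t ^ h := hkey
      _ ≤ C ^ n * (t ^ n * t) := mul_le_mul_of_nonneg_left hth hCn.le
      _ = (t * C ^ n) * t ^ n := by ring
  have := le_of_mul_le_mul_right this htn
  linarith

variable {K L : Type*} [Field K] [NumberField K] [Field L] [NumberField L] [Algebra K L]

/-- **Second inequality, analytic form.** -/
theorem card_le_finrank_of_bounded {A : Type*} [CommGroup A] [Finite A]
    (ψ : (A →* ℂˣ) → ((Ideal (𝓞 K))⁰ →* ℂ)) (hnorm : ∀ χ I, ‖ψ χ I‖ ≤ 1)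
    (a : HeightOneSpectrum (𝓞 K) → A) (Bad : Set (HeightOneSpectrum (𝓞 K)))
    (hBad : Bad.Finite)
    (hgood : ∀ χ v, v ∉ Bad → ψ χ (H163.toI0 v) = ((χ (a v) : ℂˣ) : ℂ))
    (hbad : ∀ χ v, v ∈ Bad → ψ χ (H163.toI0 v) = 0)
    (hbdd : ∀ χ : A →* ℂˣ, χ ≠ 1 → LrayBounded (ψ χ))
    (hsplit : ∀ w : HeightOneSpectrum (𝓞 L), (Ideal.absNorm w.asIdeal).Prime →
      und K L w ∉ Bad → a (und K L w) = 1) :
    Nat.card A ≤ Module.finrank K L := by
  by_contra hlt
  rw [not_le] at hlt
  obtain ⟨C₁, hC₁, hup⟩ := kernel_mass_le ψ hnorm a Bad hgood hbad hbdd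
  obtain ⟨C₂, hC₂, hlow⟩ := lower_mass K L Bad hBad
  obtain ⟨_, CK, δK, _, hδK, hZK⟩ := H163.zetaBounds (K := K)
  obtain ⟨cL, _, δL, hcL, hδL, hZL⟩ := H163.zetaBounds (K := L)
  refine growth_contra hlt (c := cL / C₂) (C := C₁ * (|CK| + 1)) (δ := min 1 (min δK δL))
    (by positivity) (by positivity) (lt_min one_pos (lt_min hδK hδL)) ?_
  intro s hs1 hsδ
  have hm1 : min 1 (min δK δL) ≤ 1 := min_le_left _ _
  have hm2 : min 1 (min δK δL) ≤ δK := (min_le_right _ _).trans (min_le_left _ _)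
  have hm3 : min 1 (min δK δL) ≤ δL := (min_le_right _ _).trans (min_le_right _ _)
  have hs2 : s ≤ 2 := by linarith
  have hsK : s < 1 + δK := by linarith
  have hsL : s < 1 + δL := by linarith
  have hs0 : 0 < s - 1 := by linarith
  obtain ⟨T, hT, hTle⟩ := hlow s hs1 hs2
  refine ⟨∏ v ∈ T, (1 + H163.normPow s (H163.toI0 v)), ?_, ?_, ?_⟩
  · refine Finset.one_le_prod (fun v _ => ?_)
    have := H163.normPow_pos s (H163.toI0 v)
    linarith
  · have h1 := (hZL s hs1 hsL).1
    rw [H163.zetaI_eq_zetaR] at h1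
    have h2 := h1.trans hTle
    rw [div_div, div_le_iff₀ (by positivity)]
    rw [div_le_iff₀ hs0] at h2
    calc cL ≤ C₂ * (∏ v ∈ T, (1 + H163.normPow s (H163.toI0 v))) ^ Module.finrank K L *
          (s - 1) := h2
      _ = _ := by ring
  · have h1 := (hZK s hs1 hsK).2
    rw [H163.zetaI_eq_zetaR] at h1
    have h2 := hup s hs1 hs2 T (fun v hv => by
      obtain ⟨hvB, w, hw, hwv⟩ := hT v hv
      refine ⟨hvB, ?_⟩
      rw [← hwv]
      exact hsplit w hw (hwv ▸ hvB))
    refine h2.trans ?_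
    rw [mul_div_assoc]
    refine mul_le_mul_of_nonneg_left (h1.trans ?_) hC₁.le
    exact div_le_div_of_nonneg_right (by linarith [le_abs_self CK]) hs0.le

end Fermat.Agent.S55.G.H357
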