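import Mathlib
import Fermat.Agent.S55.G.H357.SecondIneq

/-!
# S55, layer G (helper357): the second inequality for ray class data

`m` a nonzero ideal of `𝓞 K`, `φ` a map from ideals to a finite abelian group `A`, multiplicative
on the ideals coprime to `m`.  If the partial zeta functions
`ζ(s, a) = ∑_{I coprime to m, φ I = a} N(I)^{-s}` differ by `O(1)` on `(1, 2]` (ray class version
of S14-N1), and `φ v = 1` for every prime `v` coprime to `m` lying under a prime of `L` of degree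
one, then `#A ≤ [L : K]`.
-/

set_option autoImplicit false
set_option linter.unusedSectionVars false

namespace Fermat.Agent.S55.G.H357

open NumberField IsDedekindDomain Filter Topology
open scoped nonZeroDivisors
open Fermat.Agent.S14

variable {K : Type*} [Field K] [NumberField K] {A : Type*} [CommGroup A]

/-- Nonzero ideals coprime to `m` of class `a`. -/
def rayCls (m : Ideal (𝓞 K)) (φ : Ideal (𝓞 K) → A) (a : A) : Set (Ideal (𝓞 K)) :=
  {I | I ≠ ⊥ ∧ IsCoprime I m ∧ φ I = a}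

/-- The partial zeta function of the class `a`. -/
noncomputable def rayZeta (m : Ideal (𝓞 K)) (φ : Ideal (𝓞 K) → A) (a : A) (s : ℝ) : ℝ :=
  ∑' I : rayCls m φ a, (Ideal.absNorm (I : Ideal (𝓞 K)) : ℝ) ^ (-s)

variable (m : Ideal (𝓞 K)) (φ : Ideal (𝓞 K) → A)
  (hmul : ∀ I J : Ideal (𝓞 K), IsCoprime I m → IsCoprime J m → φ (I * J) = φ I * φ J)

include hmul in
theorem rayMap_one : φ 1 = 1 := by
  have h1 : IsCoprime (1 : Ideal (𝓞 K)) m := isCoprime_one_left
  have := hmul 1 1 h1 h1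
  rw [mul_one] at this
  exact (mul_eq_left.mp this.symm)

open scoped Classical in
/-- The completely multiplicative function `I ↦ χ (φ I)` (zero off the ideals coprime to `m`). -/
noncomputable def rayTwist (χ : A →* ℂˣ) : (Ideal (𝓞 K))⁰ →* ℂ where
  toFun I := if IsCoprime (I : Ideal (𝓞 K)) m then ((χ (φ I) : ℂˣ) : ℂ) else 0
  map_one' := by
    have h1 : IsCoprime (((1 : (Ideal (𝓞 K))⁰) : Ideal (𝓞 K))) m := isCoprime_one_left
    rw [if_pos h1]
    have : φ ((1 : (Ideal (𝓞 K))⁰) : Ideal (𝓞 K)) = 1 := rayMap_one m φ hmul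
    rw [this, map_one, Units.val_one]
  map_mul' I J := by
    by_cases hI : IsCoprime (I : Ideal (𝓞 K)) m
    · by_cases hJ : IsCoprime (J : Ideal (𝓞 K)) m
      · have hIJ : IsCoprime ((I * J : (Ideal (𝓞 K))⁰) : Ideal (𝓞 K)) m := hI.mul_left hJ
        rw [if_pos hI, if_pos hJ, if_pos hIJ]
        have : φ ((I * J : (Ideal (𝓞 K))⁰) : Ideal (𝓞 K)) = φ I * φ J := hmul _ _ hI hJ
        rw [this, map_mul, Units.val_mul]
      · have hIJ : ¬ IsCoprime ((I * J : (Ideal (𝓞 K))⁰) : Ideal (𝓞 K)) m :=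
          fun h => hJ (IsCoprime.of_mul_left_right h)
        rw [if_neg hJ, if_neg hIJ, mul_zero]
    · have hIJ : ¬ IsCoprime ((I * J : (Ideal (𝓞 K))⁰) : Ideal (𝓞 K)) m :=
        fun h => hI (IsCoprime.of_mul_left_left h)
      rw [if_neg hI, if_neg hIJ, zero_mul]

theorem rayTwist_of_coprime (χ : A →* ℂˣ) {I : (Ideal (𝓞 K))⁰}
    (h : IsCoprime (I : Ideal (𝓞 K)) m) :
    rayTwist m φ hmul χ I = ((χ (φ I) : ℂˣ) : ℂ) := by
  classical
  exact if_pos h

theorem rayTwist_of_not_coprime (χ : A →* ℂˣ) {I : (Ideal (𝓞 K))⁰}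
    (h : ¬ IsCoprime (I : Ideal (𝓞 K)) m) :
    rayTwist m φ hmul χ I = 0 := by
  classical
  exact if_neg h

theorem norm_char_eq_one [Finite A] (χ : A →* ℂˣ) (a : A) : ‖((χ a : ℂˣ) : ℂ)‖ = 1 := by
  have h : ((χ a : ℂˣ) : ℂ) ^ orderOf a = 1 := by
    rw [← Units.val_pow_eq_pow_val, ← map_pow, pow_orderOf_eq_one, map_one, Units.val_one]
  exact Complex.norm_eq_one_of_pow_eq_one h (orderOf_pos a).ne'

theorem norm_rayTwist_le [Finite A] (χ : A →* ℂˣ) (I : (Ideal (𝓞 K))⁰) :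
    ‖rayTwist m φ hmul χ I‖ ≤ 1 := by
  by_cases h : IsCoprime (I : Ideal (𝓞 K)) m
  · rw [rayTwist_of_coprime m φ hmul χ h, norm_char_eq_one]
  · rw [rayTwist_of_not_coprime m φ hmul χ h, norm_zero]
    exact zero_le_one

/-- The ideals of class `a`, as a set of nonzero ideals. -/
def rayClsNZ (a : A) : Set ((Ideal (𝓞 K))⁰) :=
  {I | (I : Ideal (𝓞 K)) ∈ rayCls m φ a}

/-- The two descriptions of the ideals of class `a` agree. -/
def rayClsEquiv (a : A) : rayClsNZ m φ a ≃ rayCls m φ a where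
  toFun I := ⟨(I.1 : Ideal (𝓞 K)), I.2⟩
  invFun J := ⟨⟨J.1, mem_nonZeroDivisors_of_ne_zero J.2.1⟩, J.2⟩
  left_inv _ := rfl
  right_inv _ := rfl

theorem tsum_indicator_rayClsNZ (a : A) (s : ℝ) :
    ∑' I : (Ideal (𝓞 K))⁰, (rayClsNZ m φ a).indicator (fun I => H163.normPow s I) I =
      rayZeta m φ a s := by
  rw [← tsum_subtype (rayClsNZ m φ a) (fun I => H163.normPow s I), rayZeta,
    ← (rayClsEquiv m φ a).tsum_eq]
  refine tsum_congr fun I => ?_
  rw [H163.normPow_apply]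
  rfl

theorem summable_indicator_rayClsNZ (a : A) {s : ℝ} (hs : 1 < s) :
    Summable ((rayClsNZ m φ a).indicator (fun I : (Ideal (𝓞 K))⁰ => H163.normPow s I)) :=
  (H163.summable_normPow hs).indicator _

theorem rayZeta_nonneg (a : A) (s : ℝ) : 0 ≤ rayZeta m φ a s :=
  tsum_nonneg fun _ => Real.rpow_nonneg (Nat.cast_nonneg _) _

/-- The `L`-series of `χ ∘ φ` as a combination of the partial zeta functions. -/
theorem Lray_rayTwist [Fintype A] (χ : A →* ℂˣ) {s : ℝ} (hs : 1 < s) :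
    Lray (rayTwist m φ hmul χ) s =
      ∑ a : A, ((χ a : ℂˣ) : ℂ) * ((rayZeta m φ a s : ℝ) : ℂ) := by
  classical
  have hpt : ∀ I : (Ideal (𝓞 K))⁰, tw (rayTwist m φ hmul χ) s I =
      ∑ a : A, ((χ a : ℂˣ) : ℂ) *
        (((rayClsNZ m φ a).indicator (fun I => H163.normPow s I) I : ℝ) : ℂ) := by
    intro I
    have hI0 : (I : Ideal (𝓞 K)) ≠ ⊥ := nonZeroDivisors.coe_ne_zero I
    rw [tw_apply]
    by_cases h : IsCoprime (I : Ideal (𝓞 K)) m
    · rw [rayTwist_of_coprime m φ hmul χ h, Finset.sum_eq_single (φ (I : Ideal (𝓞 K)))]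
      · rw [Set.indicator_of_mem]
        exact ⟨hI0, h, rfl⟩
      · intro a _ ha
        rw [Set.indicator_of_notMem, Complex.ofReal_zero, mul_zero]
        rintro ⟨-, -, h'⟩
        exact ha h'.symm
      · intro h'
        exact absurd (Finset.mem_univ _) h'
    · rw [rayTwist_of_not_coprime m φ hmul χ h, zero_mul]
      symm
      refine Finset.sum_eq_zero fun a _ => ?_
      rw [Set.indicator_of_notMem, Complex.ofReal_zero, mul_zero]
      rintro ⟨-, h', -⟩
      exact h h'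
  have hsum : ∀ a : A, Summable fun I : (Ideal (𝓞 K))⁰ => ((χ a : ℂˣ) : ℂ) *
      (((rayClsNZ m φ a).indicator (fun I => H163.normPow s I) I : ℝ) : ℂ) := by
    intro a
    refine Summable.mul_left _ ?_
    exact Complex.summable_ofReal.mpr (summable_indicator_rayClsNZ m φ a hs)
  unfold Lray
  rw [tsum_congr hpt, Summable.tsum_finsetSum fun a _ => hsum a]
  refine Finset.sum_congr rfl fun a _ => ?_
  rw [tsum_mul_left, ← Complex.ofReal_tsum, tsum_indicator_rayClsNZ]

/-- The `L`-series of a nontrivial character is bounded when the partial zeta functions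
differ by bounded functions. -/
theorem lrayBounded_rayTwist [Finite A]
    (hzeta : ∀ a b : A, ∃ B : ℝ, ∀ s : ℝ, 1 < s → s ≤ 2 →
      |rayZeta m φ a s - rayZeta m φ b s| ≤ B)
    (χ : A →* ℂˣ) (hχ : χ ≠ 1) : LrayBounded (rayTwist m φ hmul χ) := by
  classical
  let _ : Fintype A := Fintype.ofFinite A
  choose B hB using fun a => hzeta a 1
  refine ⟨∑ a : A, B a, fun s hs1 hs2 => ?_⟩
  have hχsum : ∑ a : A, ((χ a : ℂˣ) : ℂ) = 0 := by
    have := sum_hom_units_eq_zero ((Units.coeHom ℂ).comp χ) (by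
      intro h
      apply hχ
      ext a
      have := DFunLike.congr_fun h a
      simpa using this)
    simpa using this
  have hrew : ∑ a : A, ((χ a : ℂˣ) : ℂ) * ((rayZeta m φ a s : ℝ) : ℂ) =
      ∑ a : A, ((χ a : ℂˣ) : ℂ) * (((rayZeta m φ a s - rayZeta m φ 1 s : ℝ)) : ℂ) := by
    have : ∑ a : A, ((χ a : ℂˣ) : ℂ) * (((rayZeta m φ a s - rayZeta m φ 1 s : ℝ)) : ℂ) =
        ∑ a : A, ((χ a : ℂˣ) : ℂ) * ((rayZeta m φ a s : ℝ) : ℂ) -
          (∑ a : A, ((χ a : ℂˣ) : ℂ)) * ((rayZeta m φ 1 s : ℝ) : ℂ) := by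
      rw [Finset.sum_mul, ← Finset.sum_sub_distrib]
      refine Finset.sum_congr rfl fun a _ => ?_
      push_cast
      ring
    rw [this, hχsum, zero_mul, sub_zero]
  rw [Lray_rayTwist m φ hmul χ hs1, hrew]
  refine (norm_sum_le _ _).trans (Finset.sum_le_sum fun a _ => ?_)
  rw [norm_mul, norm_char_eq_one, one_mul, Complex.norm_real, Real.norm_eq_abs]
  exact hB a s hs1 hs2

/-- Only finitely many primes are not coprime to a nonzero ideal. -/
theorem finite_not_isCoprime (hm : m ≠ ⊥) :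
    {v : HeightOneSpectrum (𝓞 K) | ¬ IsCoprime v.asIdeal m}.Finite := by
  refine (Ideal.finite_factors (I := m) hm).subset fun v hv => ?_
  rw [Set.mem_ofPred_eq] at hv ⊢
  rw [Ideal.dvd_iff_le]
  by_contra hle
  apply hv
  rw [Ideal.isCoprime_iff_sup_eq]
  by_contra htop
  have := v.isMaximal.eq_of_le htop le_sup_left
  exact hle (this ▸ le_sup_right)

variable {L : Type*} [Field L] [NumberField L] [Algebra K L]

include hmul in
/-- **Second inequality for ray class data** (all-pairs form of the analytic hypothesis). -/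
theorem card_le_finrank_of_rayZeta [Finite A] (hm : m ≠ ⊥)
    (hzeta : ∀ a b : A, ∃ B : ℝ, ∀ s : ℝ, 1 < s → s ≤ 2 →
      |rayZeta m φ a s - rayZeta m φ b s| ≤ B)
    (hsplit : ∀ w : HeightOneSpectrum (𝓞 L), (Ideal.absNorm w.asIdeal).Prime →
      IsCoprime (und K L w).asIdeal m → φ (und K L w).asIdeal = 1) :
    Nat.card A ≤ Module.finrank K L := by
  refine card_le_finrank_of_bounded (L := L) (rayTwist m φ hmul) (norm_rayTwist_le m φ hmul)
    (fun v => φ v.asIdeal) {v | ¬ IsCoprime v.asIdeal m} (finite_not_isCoprime m hm)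
    ?_ ?_ (lrayBounded_rayTwist m φ hmul hzeta) ?_
  · intro χ v hv
    rw [Set.mem_ofPred_eq, not_not] at hv
    exact rayTwist_of_coprime m φ hmul χ hv
  · intro χ v hv
    exact rayTwist_of_not_coprime m φ hmul χ hv
  · intro w hw hv
    rw [Set.mem_ofPred_eq, not_not] at hv
    exact hsplit w hw hv

include hmul in
/-- **Second inequality for ray class data**: the analytic hypothesis in the form
"translation by an ideal `𝔠` changes the partial zeta function by `O(1)`", for a surjective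
class map. -/
theorem card_le_finrank_of_rayZeta_translate [Finite A] (hm : m ≠ ⊥)
    (hsurj : ∀ a : A, ∃ 𝔠 : Ideal (𝓞 K), 𝔠 ≠ ⊥ ∧ IsCoprime 𝔠 m ∧ φ 𝔠 = a)
    (hzeta : ∀ 𝔠 : Ideal (𝓞 K), 𝔠 ≠ ⊥ → IsCoprime 𝔠 m → ∀ a : A,
      ∃ B : ℝ, ∀ s : ℝ, 1 < s → s ≤ 2 →
        |rayZeta m φ a s - rayZeta m φ (a * φ 𝔠) s| ≤ B)
    (hsplit : ∀ w : HeightOneSpectrum (𝓞 L), (Ideal.absNorm w.asIdeal).Prime →
      IsCoprime (und K L w).asIdeal m → φ (und K L w).asIdeal = 1) :
    Nat.card A ≤ Module.finrank K L := by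
  refine card_le_finrank_of_rayZeta (L := L) m φ hmul hm (fun a b => ?_) hsplit
  obtain ⟨𝔠, h𝔠0, h𝔠m, h𝔠⟩ := hsurj (a⁻¹ * b)
  obtain ⟨B, hB⟩ := hzeta 𝔠 h𝔠0 h𝔠m a
  refine ⟨B, fun s hs1 hs2 => ?_⟩
  have := hB s hs1 hs2
  rwa [h𝔠, mul_inv_cancel_left] at this

end Fermat.Agent.S55.G.H357
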